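/-
S55 / NIT / Inst : SKELETON (statements only; WIP file, never import it from a landed file).
Each node `G2-x` = one task = one file `Fermat/Agent/S55/NIT/Inst/<Name>.lean`, statement verbatim,
namespace `Fermat.Agent.S55.NIT.Inst`.
-/
import Fermat.Agent.S55.NIT.Inst.Defs
import Fermat.Agent.S55.NIT.Assembly

set_option autoImplicit false
set_option linter.unusedSectionVars false

namespace Fermat.Agent.S55.NIT.Inst

open IsDedekindDomain NumberField WithZero Polynomial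

/-! ## Part A : arbitrary valuations -/

section General

variable {k : Type*} [Field k] {Γ₀ : Type*} [LinearOrderedCommGroupWithZero Γ₀]
  (v : Valuation k Γ₀)

/-- G2-A1 (file `Binom.lean`). -/
theorem val_one_add_pow_sub_le {p : ℕ} (hp : p.Prime) {s : k} (hs : v s ≤ 1) :
    v ((1 + s) ^ p - 1 - p * s) ≤ max (v (p : k) * v s ^ 2) (v s ^ p) := sorry

/-- G2-A2 (file `Zeta.lean`). -/
theorem val_le_val_zeta_sub {p : ℕ} (hp : p.Prime) {ζ : k} (hζ : IsPrimitiveRoot ζ p) {i j : ℕ}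
    (hij : ¬ i ≡ j [MOD p]) : v (p : k) ≤ v (ζ ^ i - ζ ^ j) := sorry

/-- G2-A3 (file `Zeta.lean`). -/
theorem exists_val_sub_zeta_lt {p : ℕ} (hp : p.Prime) {ζ : k} (hζ : IsPrimitiveRoot ζ p) {y : k}
    (hy : v (y ^ p - 1) < v (p : k) ^ 2) : ∃ i < p, v (y - ζ ^ i) < v (p : k) := sorry

/-- G2-A4 (file `ZetaPow.lean`; uses `exists_add_pow_prime_eq`). -/
theorem val_pow_sub_one_lt {p : ℕ} (hp : p.Prime) {ζ : k} (hζ : IsPrimitiveRoot ζ p) {y : k}
    {i : ℕ} (hy : v (y - ζ ^ i) < v (p : k)) : v (y ^ p - 1) < v (p : k) ^ 2 := sorry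

end General

/-! ## Part B : discrete valuations, filtration indices -/

section Discrete

variable {k : Type*} [Field k] (v : Valuation k ℤᵐ⁰)

/-- G2-B1 (file `BallIndex.lean`). -/
theorem relIndex_ball {π : k} (hπ : v π = exp (-1 : ℤ)) (a : ℤ) (d : ℕ) :
    (ball v (a + d)).relIndex (ball v a) = (ball v 1).relIndex (ball v 0) ^ d := sorry

/-- G2-B2 (file `UUIndex.lean`). -/
theorem relIndex_UU {a b : ℕ} (h : a ≤ b) :
    (UU v b).relIndex (UU v a) = (ball v (b + 1)).relIndex (ball v (a + 1)) := sorry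

/-- G2-B3 (file `UUIndex.lean`). -/
theorem relIndex_UU_U0_ne_zero (hq : (ball v 1).relIndex (ball v 0) ≠ 0) :
    (UU v 0).relIndex (U0 v) ≠ 0 := sorry

/-- G2-B4 (file `PowIndexAbs.lean`; pure group theory). -/
theorem relIndex_map_pow_sup {G : Type*} [CommGroup G] (p : ℕ) (U U₂ : Subgroup G) (h : U₂ ≤ U)
    (hfin : U₂.relIndex U ≠ 0) :
    (U.map (powMonoidHom p) ⊔ U₂).relIndex U = U₂.relIndex (U ⊓ U₂.comap (powMonoidHom p)) :=
  sorry

/-- G2-B5 (file `Stable.lean`; uses A1). -/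
theorem UU_le_pwk_sup_UU {p : ℕ} (hp : p.Prime) {e : ℕ} (he : v (p : k) = exp (-(e : ℤ))) (n : ℕ) :
    UU v (2 * e) ≤ pwk k p ⊔ UU v n := sorry

/-- G2-B6 (file `LocalIndex.lean`; uses A2 A3 A4 B1 B2 B3 B4). -/
theorem relIndex_pwk_sup_UU {p : ℕ} (hp : p.Prime) {ζ : k} (hζ : IsPrimitiveRoot ζ p) {π : k}
    (hπ : v π = exp (-1 : ℤ)) {e : ℕ} (he : v (p : k) = exp (-(e : ℤ)))
    (hq : (ball v 1).relIndex (ball v 0) ≠ 0) :
    (pwk k p ⊔ UU v (2 * e)).relIndex (U0 v) = p * (ball v 1).relIndex (ball v 0) ^ e := sorry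

/-- G2-B7 (file `LocalIndex2.lean`; uses B6). -/
theorem index_pwk_sup_UU {p : ℕ} (hp : p.Prime) {ζ : k} (hζ : IsPrimitiveRoot ζ p) {π : k}
    (hπ : v π = exp (-1 : ℤ)) {e : ℕ} (he : v (p : k) = exp (-(e : ℤ)))
    (hq : (ball v 1).relIndex (ball v 0) ≠ 0) :
    (pwk k p ⊔ UU v (2 * e)).index = p ^ 2 * (ball v 1).relIndex (ball v 0) ^ e := sorry

end Discrete

/-! ## Part C : number fields -/

section NF

variable {K : Type*} [Field K] [NumberField K]

/-- G2-C1 (file `ResidueCard.lean`). -/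
theorem relIndex_ball_eq_absNorm (v : Pl K) :
    (ball (v.valuation K) 1).relIndex (ball (v.valuation K) 0) = Ideal.absNorm v.asIdeal := sorry

/-- G2-C2 (file `ValP.lean`). -/
theorem exists_val_natCast (v : Pl K) {p : ℕ} (hp : p ≠ 0) :
    ∃ e : ℕ, v.valuation K (p : K) = exp (-(e : ℤ)) ∧
      Ideal.absNorm (v.maxPowDividing (Ideal.span {(p : 𝓞 K)})) = Ideal.absNorm v.asIdeal ^ e ∧
      (e = 0 ↔ ¬ SI.Over p K v) := sorry

/-- G2-C3 (file `LocPow.lean`; uses B5). -/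
theorem locPow_eq {p : ℕ} (hp : p.Prime) (v : Pl K) {e : ℕ}
    (he : v.valuation K (p : K) = exp (-(e : ℤ))) : locPow K p v = pw K p ⊔ pu v (2 * e) := sorry

/-- G2-C4 (file `LocPow.lean`; uses B7 C1 C2 C3). -/
theorem index_locPow {p : ℕ} (hp : p.Prime) {ζ : K} (hζ : IsPrimitiveRoot ζ p) (v : Pl K) :
    (locPow K p v).index = p ^ 2 * Ideal.absNorm (v.maxPowDividing (Ideal.span {(p : 𝓞 K)})) :=
  sorry

/-- G2-C5 (file `LocPow.lean`; uses B6 C1 C2 C3). -/
theorem relIndex_locPow_Uv {p : ℕ} (hp : p.Prime) {ζ : K} (hζ : IsPrimitiveRoot ζ p) (v : Pl K)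
    (hv : ¬ SI.Over p K v) : (locPow K p v).relIndex (SI.Uv K v) = p := sorry

/-- G2-C6 (file `Tame.lean`; uses C2 C3). -/
theorem mem_locPow_iff_tame {p : ℕ} (hp : p.Prime) (v : Pl K) (hv : ¬ SI.Over p K v) (x : Kˣ)
    (hx : x ∈ SI.Uv K v) :
    x ∈ locPow K p v ↔ ∃ y : Kˣ, v.valuation K ((x : K) - (y : K) ^ p) < 1 := sorry

/-- G2-C7 (file `Tame.lean`). -/
theorem val_of_mem_locPow {p : ℕ} (v : Pl K) (x : Kˣ) (hx : x ∈ locPow K p v) :
    ∃ y : Kˣ, v.valuation K (x : K) = v.valuation K (y : K) ^ p := sorry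

/-- G2-D1 (file `WeakApprox.lean`). -/
theorem weak_approx (T : Finset (Pl K)) (x : Pl K → K) (n : ℕ) :
    ∃ y : K, ∀ v ∈ T, v.valuation K (y - x v) < exp (-(n : ℤ)) := sorry

/-- G2-D2 (file `WeakApproxUnits.lean`; uses D1). -/
theorem weak_approx_units (T : Finset (Pl K)) (x : Pl K → Kˣ) (n : ℕ) :
    ∃ y : Kˣ, ∀ v ∈ T, y / x v ∈ pu v n := sorry

end NF

/-! ## Part E : Kummer extensions -/

section Kummer

variable {K : Type*} [Field K] [NumberField K] {L : Type*} [Field L] [NumberField L] [Algebra K L]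

/-- G2-E0 (file `ValExt.lean`). -/
theorem exists_val_algebraMap {v : Pl K} {w : Pl L} (h : Above v w) :
    ∃ e : ℕ, 0 < e ∧ ∀ x : K, w.valuation L (algebraMap K L x) = v.valuation K x ^ e := sorry

/-- G2-E1 (file `SplitOfPow.lean`; uses A2 A3 E0 and `FI.exists_valuation_comp`). -/
theorem split_of_mem_locPow {p : ℕ} (h : Kum K L p) {b : Kˣ} {β : L}
    (hβ : β ^ p = algebraMap K L (b : K)) (hb : ∀ c : Kˣ, c ^ p ≠ b) {v : Pl K}
    (hv : b ∈ locPow K p v) : Split K L v := sorry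

/-- G2-E2 (file `NormSplit.lean`; uses D2 for `L`, E0, `FI.exists_valuation_comp`,
`FI.exists_galois_of_under_eq`). -/
theorem locNorm_eq_top_of_split {p : ℕ} (h : Kum K L p) {v : Pl K} (hs : Split K L v) :
    locNorm K L v = ⊤ := sorry

/-- G2-E3 (file `KummerGen.lean`). -/
theorem exists_kummer_generator {p : ℕ} (h : Kum K L p) :
    ∃ (b : Kˣ) (β : L), β ^ p = algebraMap K L (b : K) ∧ ∀ c : Kˣ, c ^ p ≠ b := sorry

end Kummer

/-! ## Part F : the Kummer algebra `Ab K p b` and the instance -/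

section Model

variable {K : Type*} [Field K] [NumberField K]

/-! G2-F1 = file `Model.lean` (LANDED): `irreducible_X_pow_sub_C`, `finite_Ab`, `finrank_Ab`,
`numberField_Ab`, `root_pow_Ab`, `kum_Ab`. -/

/-- G2-F2 (file `ModelNorm.lean`). -/
theorem pw_le_nrmA {p : ℕ} (hp : p ≠ 0) (b : Kˣ) : pw K p ≤ nrmA K (Ab K p b) := sorry

/-- G2-F3 (file `ModelNorm.lean`). -/
theorem self_mem_nrmA {p : ℕ} (hp : Odd p) (b : Kˣ) : b ∈ nrmA K (Ab K p b) := sorry

/-- G2-F4 (file `ModelEquiv.lean`). -/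
theorem nrmA_Ab_eq_nrm {L : Type*} [Field L] [NumberField L] [Algebra K L] {p : ℕ} (h : Kum K L p)
    {b : Kˣ} {β : L} (hβ : β ^ p = algebraMap K L (b : K)) (hb : ∀ c : Kˣ, c ^ p ≠ b) :
    nrmA K (Ab K p b) = nrm K L := sorry

/-- G2-F5 (file `ModelTop.lean`; uses E1 E2 and the field structure on `Ab K p b`). -/
theorem locNormA_Ab_eq_top {p : ℕ} (hp : p.Prime) (hp2 : p ≠ 2) {ζ : K} (hζ : IsPrimitiveRoot ζ p)
    {b : Kˣ} (hb : ∀ c : Kˣ, c ^ p ≠ b) {v : Pl K} (hv : b ∈ locPow K p v) :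
    locNormA K (Ab K p b) v = ⊤ := sorry

/-- G2-F6 (file `Instance.lean`). THE INSTANCE. -/
noncomputable def locData {p : ℕ} (hp : p.Prime) (hp2 : p ≠ 2) {ζ : K} (hζ : IsPrimitiveRoot ζ p) :
    SI.LocData p K where
  pow := locPow K p
  nrm := nrmD K p
  pow_mem := sorry
  val_of_mem_pow := sorry
  pow_le_nrm := sorry
  nrm_eq_top := sorry
  unit_le_nrm := sorry
  index_pow := sorry
  tame := sorry

/-- G2-F7 (file `Instance.lean`). -/
theorem nrmD_eq_locNorm {L : Type*} [Field L] [NumberField L] [Algebra K L] {p : ℕ} (h : Kum K L p)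
    {b : Kˣ} {β : L} (hβ : β ^ p = algebraMap K L (b : K)) (hb : ∀ c : Kˣ, c ^ p ≠ b) (v : Pl K) :
    nrmD K p b v = locNorm K L v := sorry

end Model

end Fermat.Agent.S55.NIT.Inst
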